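import Mathlib
import Fermat.Agent.H9.E6.Interfaces

/-!
# E6-SURJ (row 638, helper66): the Gauss ring of the model field reduces onto `F_{k₁}`

`modelRedSurj : Fermat.Agent.H9.E6.ModelRedSurjStatement` : for every field `K₁ ⊇ ℚ` and every
valuation subring `A₁` of `K₁` with residue field `k₁`, every element of
`F_{k₁} = k₁(j(q^d) : d ∣ N)` is the reduction of an element of the Gauss ring lying in the model
field `laurentBaseChange K₁ (modularFunctionFieldFull N)`.  (General form of `H66.gaussSurj`.)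
-/

set_option autoImplicit false
set_option synthInstance.maxHeartbeats 400000
set_option linter.unusedSectionVars false

open AlgebraicCurve ModularCurve

namespace Fermat.Agent.H66.E6

noncomputable section

variable (N : ℕ) (K₁ : Type) [Field K₁] [Algebra ℚ K₁] (A₁ : ValuationSubring K₁)

/-- the reductions of the Gauss elements of the model field -/
def mrsRange : Set (LaurentSeries (IsLocalRing.ResidueField ↥A₁)) :=
  {z | ∃ (y : LaurentSeries K₁) (_ : y ∈ laurentBaseChange K₁ (modularFunctionFieldFull N))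
    (hy : y ∈ vGaussRing A₁), vGaussRed A₁ ⟨y, hy⟩ = z}

theorem mrs_mem_intro {y : LaurentSeries K₁}
    (h1 : y ∈ laurentBaseChange K₁ (modularFunctionFieldFull N)) (h2 : y ∈ vGaussRing A₁)
    {z : LaurentSeries (IsLocalRing.ResidueField ↥A₁)} (h3 : vGaussRed A₁ ⟨y, h2⟩ = z) :
    z ∈ mrsRange N K₁ A₁ := ⟨y, h1, h2, h3⟩

theorem mrs_qExpand_mem {d : ℕ} [NeZero d] (hd : d ∣ N) :
    qExpand K₁ d (jqModC K₁) ∈ laurentBaseChange K₁ (modularFunctionFieldFull N) := by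
  have h : qExpand K₁ d (jqModC K₁) = coeffEmb K₁ (qExpand ℚ d jq) := by
    rw [coeffEmb, coeffMap_qExpand, ← jqModC_rat, coeffMap_jqModC]
  rw [h]
  exact coeffEmb_mem_laurentBaseChange _ (jqd_mem_full N hd)

theorem mrs_qExpand_eq_vIota (d : ℕ) [NeZero d] :
    qExpand K₁ d (jqModC K₁) = vIota A₁ (qExpand ↥A₁ d (jqModC ↥A₁)) := by
  rw [vIota, coeffMap_qExpand, coeffMap_jqModC]

theorem mrs_vRho_qExpand (d : ℕ) [NeZero d] :
    vRho A₁ (qExpand ↥A₁ d (jqModC ↥A₁)) =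
      qExpand (IsLocalRing.ResidueField ↥A₁) d (jqModC (IsLocalRing.ResidueField ↥A₁)) := by
  rw [vRho, coeffMap_qExpand, coeffMap_jqModC]

theorem mrs_gen {d : ℕ} [NeZero d] (hd : d ∣ N) :
    qExpand (IsLocalRing.ResidueField ↥A₁) d (jqModC (IsLocalRing.ResidueField ↥A₁)) ∈
      mrsRange N K₁ A₁ := by
  have hmem : qExpand K₁ d (jqModC K₁) ∈ vGaussRing A₁ := by
    rw [mrs_qExpand_eq_vIota K₁ A₁ d]
    exact vIota_mem_vGaussRing A₁ _
  refine mrs_mem_intro N K₁ A₁ (mrs_qExpand_mem N K₁ hd) hmem ?_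
  rw [← mrs_vRho_qExpand K₁ A₁ d, ← vGaussRed_vIota A₁ (qExpand ↥A₁ d (jqModC ↥A₁))]
  congr 1
  exact Subtype.ext (mrs_qExpand_eq_vIota K₁ A₁ d)

theorem mrs_const (c : IsLocalRing.ResidueField ↥A₁) :
    algebraMap (IsLocalRing.ResidueField ↥A₁) (LaurentSeries (IsLocalRing.ResidueField ↥A₁)) c ∈
      mrsRange N K₁ A₁ := by
  obtain ⟨a, rfl⟩ := IsLocalRing.residue_surjective c
  have h1 : algebraMap K₁ (LaurentSeries K₁) (a : K₁) ∈
      laurentBaseChange K₁ (modularFunctionFieldFull N) :=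
    IntermediateField.algebraMap_mem _ _
  exact mrs_mem_intro N K₁ A₁ h1 (algebraMap_mem_vGaussRing A₁ a.2) (vGaussRed_algebraMap A₁ a.2)

theorem mrs_add {x y : LaurentSeries (IsLocalRing.ResidueField ↥A₁)}
    (hx : x ∈ mrsRange N K₁ A₁) (hy : y ∈ mrsRange N K₁ A₁) : x + y ∈ mrsRange N K₁ A₁ := by
  obtain ⟨a, ha, ha', rfl⟩ := hx
  obtain ⟨b, hb, hb', rfl⟩ := hy
  refine mrs_mem_intro N K₁ A₁ (add_mem ha hb) (add_mem ha' hb') ?_
  have h : (⟨a + b, add_mem ha' hb'⟩ : vGaussRing A₁) = ⟨a, ha'⟩ + ⟨b, hb'⟩ := Subtype.ext rfl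
  rw [h, map_add]

theorem mrs_mul {x y : LaurentSeries (IsLocalRing.ResidueField ↥A₁)}
    (hx : x ∈ mrsRange N K₁ A₁) (hy : y ∈ mrsRange N K₁ A₁) : x * y ∈ mrsRange N K₁ A₁ := by
  obtain ⟨a, ha, ha', rfl⟩ := hx
  obtain ⟨b, hb, hb', rfl⟩ := hy
  refine mrs_mem_intro N K₁ A₁ (mul_mem ha hb) (mul_mem ha' hb') ?_
  have h : (⟨a * b, mul_mem ha' hb'⟩ : vGaussRing A₁) = ⟨a, ha'⟩ * ⟨b, hb'⟩ := Subtype.ext rfl
  rw [h, map_mul]

theorem mrs_inv {x : LaurentSeries (IsLocalRing.ResidueField ↥A₁)}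
    (hx : x ∈ mrsRange N K₁ A₁) : x⁻¹ ∈ mrsRange N K₁ A₁ := by
  obtain ⟨a, ha, ha', rfl⟩ := hx
  by_cases h0 : vGaussRed A₁ ⟨a, ha'⟩ = 0
  · rw [h0, inv_zero]
    refine mrs_mem_intro N K₁ A₁ (zero_mem _) (zero_mem _) ?_
    have h : (⟨0, zero_mem _⟩ : vGaussRing A₁) = 0 := Subtype.ext rfl
    rw [h, map_zero]
  · have hinv : a⁻¹ ∈ vGaussRing A₁ := inv_mem_vGaussRing A₁ (x := ⟨a, ha'⟩) h0
    have h3 : vGaussRed A₁ ⟨a⁻¹, hinv⟩ = (vGaussRed A₁ ⟨a, ha'⟩)⁻¹ :=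
      vGaussRed_inv A₁ (x := ⟨a, ha'⟩) h0
    exact mrs_mem_intro N K₁ A₁ (inv_mem ha) hinv h3

theorem mrs_full [NeZero N] (z : LaurentSeries (IsLocalRing.ResidueField ↥A₁))
    (hz : z ∈ modularFunctionFieldFullC (IsLocalRing.ResidueField ↥A₁) N) :
    z ∈ mrsRange N K₁ A₁ := by
  rw [modularFunctionFieldFullC] at hz
  induction hz using IntermediateField.adjoin_induction with
  | mem x hx =>
    obtain ⟨d, hd, hdN, rfl⟩ := hx
    have := hd
    exact mrs_gen N K₁ A₁ hdN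
  | algebraMap c => exact mrs_const N K₁ A₁ c
  | add x y _ _ hx hy => exact mrs_add N K₁ A₁ hx hy
  | inv x _ hx => exact mrs_inv N K₁ A₁ hx
  | mul x y _ _ hx hy => exact mrs_mul N K₁ A₁ hx hy

/-- **E6-SURJ.** -/
theorem modelRedSurj : Fermat.Agent.H9.E6.ModelRedSurjStatement := by
  intro N _ K₁ _ _ A₁ z hz
  exact mrs_full N K₁ A₁ z hz

end

end Fermat.Agent.H66.E6
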